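/-
T2-D (helper5), part 2: integrality over `K[x]` under change of the constant field.

* `t2d_isIntegral_adjoin_iff`: `f` is integral over `K[x]` iff `f ^ d + ∑ i < d, qᵢ(x) f ^ i = 0`
  for some polynomials `qᵢ ∈ K[T]`;
* `t2d_isIntegral_map`: a ring homomorphism `ψ : F → F'` which is semilinear over `σ : K → K'`
  maps functions integral over `K[x]` to functions integral over `K'[ψ x]`;
* `t2d_identity_descend`: for Laurent series, a monic relation over `Ω[j(x)]` for `j(u)` descends to
  a monic relation over `k[x]` for `u` (`j : k → Ω` any field extension; apply a `k`-linear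
  retraction `Ω → k` coefficientwise).
-/
import Mathlib
import Fermat.Prelude.Def_ModularCurve_LaurentCoeff

set_option autoImplicit false
set_option linter.unusedSectionVars false
set_option linter.style.haveILetI false

namespace Fermat.Agent.T2

open ModularCurve Polynomial

section Char

variable {K F : Type*} [CommRing K] [CommRing F] [Algebra K F]

/-- integrality over `K[x]` as a polynomial identity -/
theorem t2d_isIntegral_adjoin_iff (x f : F) :
    IsIntegral ↥(Algebra.adjoin K {x}) f ↔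
      ∃ (d : ℕ) (q : Fin d → Polynomial K),
        f ^ d + ∑ i : Fin d, aeval x (q i) * f ^ (i : ℕ) = 0 := by
  constructor
  · rintro ⟨P, hmonic, hP⟩
    have hmem : ∀ i : ℕ, ∃ q : Polynomial K, aeval x q = ((P.coeff i : ↥(Algebra.adjoin K {x})) : F) := by
      intro i
      have h : ((P.coeff i : ↥(Algebra.adjoin K {x})) : F) ∈ (aeval (R := K) x).range := by
        rw [← Algebra.adjoin_singleton_eq_range_aeval]
        exact (P.coeff i).2
      exact h
    choose q hq using hmem
    refine ⟨P.natDegree, fun i => q i, ?_⟩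
    rw [Polynomial.eval₂_eq_sum_range, Finset.sum_range_succ, hmonic.coeff_natDegree, map_one,
      one_mul, Finset.sum_range] at hP
    rw [add_comm]
    convert hP using 2
    refine Finset.sum_congr rfl (fun i _ => ?_)
    rw [hq]
    rfl
  · rintro ⟨d, q, h⟩
    have hmem : ∀ i : Fin d, aeval x (q i) ∈ Algebra.adjoin K {x} := by
      intro i
      rw [Algebra.adjoin_singleton_eq_range_aeval]
      exact ⟨q i, rfl⟩
    refine ⟨X ^ d + ∑ i : Fin d, C (⟨aeval x (q i), hmem i⟩ : ↥(Algebra.adjoin K {x})) * X ^ (i : ℕ),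
      ?_, ?_⟩
    · exact Polynomial.monic_X_pow_add (Polynomial.degree_sum_fin_lt _)
    · rw [Polynomial.eval₂_add, Polynomial.eval₂_pow, Polynomial.eval₂_X,
        Polynomial.eval₂_finsetSum]
      simp only [Polynomial.eval₂_mul, Polynomial.eval₂_C, Polynomial.eval₂_pow,
        Polynomial.eval₂_X]
      exact h

end Char

section Semilinear

variable {K K' F F' : Type*} [CommRing K] [CommRing K'] [CommRing F] [CommRing F']
  [Algebra K F] [Algebra K' F'] (σ : K →+* K') (ψ : F →+* F')
  (hψ : ∀ c : K, ψ (algebraMap K F c) = algebraMap K' F' (σ c))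

include hψ

theorem t2d_map_aeval (x : F) (q : Polynomial K) :
    ψ (aeval x q) = aeval (ψ x) (q.map σ) := by
  rw [aeval_def, aeval_def, Polynomial.hom_eval₂, Polynomial.eval₂_map]
  congr 1
  ext c
  exact hψ c

/-- a semilinear ring homomorphism preserves integrality over `K[x]` -/
theorem t2d_isIntegral_map {x f : F} (h : IsIntegral ↥(Algebra.adjoin K {x}) f) :
    IsIntegral ↥(Algebra.adjoin K' {ψ x}) (ψ f) := by
  rw [t2d_isIntegral_adjoin_iff] at h ⊢
  obtain ⟨d, q, hq⟩ := h
  refine ⟨d, fun i => (q i).map σ, ?_⟩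
  have := congrArg ψ hq
  rw [map_add, map_pow, map_sum, map_zero] at this
  rw [← this]
  congr 1
  refine Finset.sum_congr rfl (fun i _ => ?_)
  rw [map_mul, map_pow, t2d_map_aeval σ ψ hψ]

end Semilinear

section Lam

variable {k Ω : Type*} [Field k] [Field Ω] (j : k →+* Ω)

/-- a `k`-linear retraction of `j : k → Ω` -/
theorem t2d_exists_functional :
    ∃ ℓ : Ω →+ k, (∀ (a : k) (c : Ω), ℓ (j a * c) = a * ℓ c) ∧ ℓ 1 = 1 := by
  letI : Algebra k Ω := j.toAlgebra
  have h1 : (1 : Ω) ≠ 0 := one_ne_zero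
  obtain ⟨f, hf⟩ : ∃ f : Module.Dual k Ω, f 1 ≠ 0 := by
    by_contra hcon
    push Not at hcon
    exact h1 ((Module.forall_dual_apply_eq_zero_iff k (1 : Ω)).mp hcon)
  refine ⟨(((f 1)⁻¹ • f : Module.Dual k Ω) : Ω →ₗ[k] k).toAddMonoidHom, fun a c => ?_, ?_⟩
  · show ((f 1)⁻¹ • f) (j a * c) = a * ((f 1)⁻¹ • f) c
    have : j a * c = a • c := (Algebra.smul_def a c).symm
    rw [this, map_smul, smul_eq_mul]
  · show ((f 1)⁻¹ • f) 1 = 1
    rw [LinearMap.smul_apply, smul_eq_mul, inv_mul_cancel₀ hf]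

variable (ℓ : Ω →+ k)

/-- the coefficientwise application of an additive map -/
def t2dLam : LaurentSeries Ω →+ LaurentSeries k where
  toFun w := w.map ℓ
  map_zero' := by
    ext n
    simp
  map_add' v w := by
    ext n
    simp

@[simp] theorem t2dLam_coeff (w : LaurentSeries Ω) (n : ℤ) :
    (t2dLam ℓ w).coeff n = ℓ (w.coeff n) := rfl

variable (hℓ : ∀ (a : k) (c : Ω), ℓ (j a * c) = a * ℓ c)

include hℓ

theorem t2dLam_algebraMap_mul_coeffMap (c : Ω) (t : LaurentSeries k) :
    t2dLam ℓ (algebraMap Ω (LaurentSeries Ω) c * coeffMap j t) =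
      algebraMap k (LaurentSeries k) (ℓ c) * t := by
  rw [algebraMap_laurentSeries_eq_single, algebraMap_laurentSeries_eq_single]
  ext n
  rw [t2dLam_coeff, HahnSeries.coeff_single_zero_mul, HahnSeries.coeff_single_zero_mul,
    coeffMap_coeff, mul_comm c, hℓ, mul_comm]

theorem t2dLam_coeffMap (hℓ1 : ℓ 1 = 1) (t : LaurentSeries k) : t2dLam ℓ (coeffMap j t) = t := by
  have := t2dLam_algebraMap_mul_coeffMap j ℓ hℓ 1 t
  rwa [map_one, one_mul, hℓ1, map_one, one_mul] at this

theorem t2dLam_aeval_mul (x w : LaurentSeries k) (q : Polynomial Ω) :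
    ∃ q' : Polynomial k,
      t2dLam ℓ (aeval (coeffMap j x) q * coeffMap j w) = aeval x q' * w := by
  refine ⟨∑ i ∈ Finset.range (q.natDegree + 1), Polynomial.monomial i (ℓ (q.coeff i)), ?_⟩
  rw [aeval_def, Polynomial.eval₂_eq_sum_range, Finset.sum_mul, map_sum, map_sum, Finset.sum_mul]
  refine Finset.sum_congr rfl (fun i _ => ?_)
  rw [mul_assoc, ← map_pow, ← map_mul, t2dLam_algebraMap_mul_coeffMap j ℓ hℓ,
    Polynomial.aeval_monomial, mul_assoc]

/-- **descent of monic relations** -/
theorem t2d_identity_descend (hℓ1 : ℓ 1 = 1) (x u : LaurentSeries k) (d : ℕ)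
    (q : Fin d → Polynomial Ω)
    (h : coeffMap j u ^ d + ∑ i : Fin d, aeval (coeffMap j x) (q i) * coeffMap j u ^ (i : ℕ) = 0) :
    ∃ q' : Fin d → Polynomial k, u ^ d + ∑ i : Fin d, aeval x (q' i) * u ^ (i : ℕ) = 0 := by
  choose q' hq' using fun i : Fin d => t2dLam_aeval_mul j ℓ hℓ x (u ^ (i : ℕ)) (q i)
  refine ⟨q', ?_⟩
  have := congrArg (t2dLam ℓ) h
  rw [map_add, map_sum, map_zero, ← map_pow, t2dLam_coeffMap j ℓ hℓ hℓ1] at this
  rw [← this]
  congr 1
  refine Finset.sum_congr rfl (fun i _ => ?_)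
  rw [← hq' i, map_pow]

end Lam

end Fermat.Agent.T2
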