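/-
T2-D (helper5), part 3: descent for subfields of Laurent series.

`Fk ⊆ k((q))`, `FΩ ⊆ Ω((q))` subfields with `j(Fk) ⊆ FΩ` (`j : k → Ω` coefficientwise):
* `t2dBc : Fk → FΩ`, `t2d_isIntegral_bc_iff` (integrality over `k[x]` ⟺ integrality over `Ω[j x]`);
* `t2d_finrank_comap`: for a finite-dimensional `S`-stable subspace `W ⊆ FΩ`, the `k`-subspace
  `{t ∈ Fk | j(t) ∈ W}` has the same dimension (given that membership in `Fk` descends).
-/
import Fermat.Agent.Lib.T2.Desc.Lin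
import Fermat.Agent.Lib.T2.Desc.Int

set_option autoImplicit false
set_option linter.unusedSectionVars false
set_option linter.style.haveILetI false

namespace Fermat.Agent.T2

open ModularCurve Module Polynomial

variable {k Ω : Type*} [Field k] [Field Ω] (j : k →+* Ω)
  (Fk : IntermediateField k (LaurentSeries k)) (FΩ : IntermediateField Ω (LaurentSeries Ω))
  (hF : ∀ t ∈ Fk, coeffMap j t ∈ FΩ)

/-- base change of functions `Fk → FΩ` -/
noncomputable def t2dBc : ↥Fk →+* ↥FΩ :=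
  ((coeffMap j).comp Fk.val.toRingHom).codRestrict FΩ.toSubring (fun f => hF f f.2)

theorem coe_t2dBc (f : ↥Fk) :
    ((t2dBc j Fk FΩ hF f : ↥FΩ) : LaurentSeries Ω) = coeffMap j (f : LaurentSeries k) := rfl

theorem t2d_coeffMap_algebraMap' (a : k) :
    coeffMap j (algebraMap k (LaurentSeries k) a) = algebraMap Ω (LaurentSeries Ω) (j a) := by
  rw [algebraMap_laurentSeries_eq_single, algebraMap_laurentSeries_eq_single, coeffMap_single]

theorem t2dBc_algebraMap (a : k) :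
    t2dBc j Fk FΩ hF (algebraMap k ↥Fk a) = algebraMap Ω ↥FΩ (j a) := by
  apply Subtype.ext
  rw [coe_t2dBc]
  exact t2d_coeffMap_algebraMap' j a

theorem t2dBc_injective : Function.Injective (t2dBc j Fk FΩ hF) :=
  (t2dBc j Fk FΩ hF).injective

theorem t2d_coe_aeval_k (x : ↥Fk) (q : Polynomial k) :
    ((aeval x q : ↥Fk) : LaurentSeries k) = aeval (x : LaurentSeries k) q :=
  (Polynomial.aeval_algHom_apply Fk.val x q).symm

theorem t2d_coe_aeval_Ω (x : ↥FΩ) (q : Polynomial Ω) :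
    ((aeval x q : ↥FΩ) : LaurentSeries Ω) = aeval (x : LaurentSeries Ω) q :=
  (Polynomial.aeval_algHom_apply FΩ.val x q).symm

/-- **integrality descends and ascends along the change of the constant field** -/
theorem t2d_isIntegral_bc_iff (x u : ↥Fk) :
    IsIntegral ↥(Algebra.adjoin k {x}) u ↔
      IsIntegral ↥(Algebra.adjoin Ω {t2dBc j Fk FΩ hF x}) (t2dBc j Fk FΩ hF u) := by
  constructor
  · exact t2d_isIntegral_map j (t2dBc j Fk FΩ hF) (t2dBc_algebraMap j Fk FΩ hF)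
  · intro h
    rw [t2d_isIntegral_adjoin_iff] at h ⊢
    obtain ⟨d, q, hq⟩ := h
    obtain ⟨ℓ, hℓ, hℓ1⟩ := t2d_exists_functional j
    have hq' := congrArg (Subtype.val : ↥FΩ → LaurentSeries Ω) hq
    rw [AddMemClass.coe_add, SubmonoidClass.coe_pow, AddSubmonoidClass.coe_finsetSum,
      ZeroMemClass.coe_zero] at hq'
    simp only [MulMemClass.coe_mul, SubmonoidClass.coe_pow, t2d_coe_aeval_Ω, coe_t2dBc] at hq'
    obtain ⟨q', hq''⟩ := t2d_identity_descend j ℓ hℓ hℓ1 (x : LaurentSeries k)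
      (u : LaurentSeries k) d q hq'
    refine ⟨d, q', ?_⟩
    apply Subtype.ext
    rw [AddMemClass.coe_add, SubmonoidClass.coe_pow, AddSubmonoidClass.coe_finsetSum,
      ZeroMemClass.coe_zero]
    simp only [MulMemClass.coe_mul, SubmonoidClass.coe_pow, t2d_coe_aeval_k]
    exact hq''

theorem t2d_coe_smul {K : Type*} [Field K] (F : IntermediateField K (LaurentSeries K)) (c : K)
    (w : ↥F) : ((c • w : ↥F) : LaurentSeries K) = c • (w : LaurentSeries K) := by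
  ext n
  rw [Algebra.smul_def, MulMemClass.coe_mul, HahnSeries.coeff_smul, smul_eq_mul]
  show (algebraMap K (LaurentSeries K) c * (w : LaurentSeries K)).coeff n = _
  rw [algebraMap_laurentSeries_eq_single, HahnSeries.coeff_single_zero_mul]

/-- the image in `Ω((q))` of a subspace of `FΩ` -/
def t2dImg (W : Submodule Ω ↥FΩ) : Submodule Ω (LaurentSeries Ω) where
  carrier := {v | ∃ w ∈ W, (w : LaurentSeries Ω) = v}
  zero_mem' := ⟨0, W.zero_mem, rfl⟩
  add_mem' := by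
    rintro _ _ ⟨w, hw, rfl⟩ ⟨w', hw', rfl⟩
    exact ⟨w + w', W.add_mem hw hw', rfl⟩
  smul_mem' := by
    rintro c _ ⟨w, hw, rfl⟩
    exact ⟨c • w, W.smul_mem c hw, t2d_coe_smul FΩ c w⟩

theorem mem_t2dImg {W : Submodule Ω ↥FΩ} {v : LaurentSeries Ω} :
    v ∈ t2dImg FΩ W ↔ ∃ w ∈ W, (w : LaurentSeries Ω) = v := Iff.rfl

/-- `W → t2dImg W` -/
def t2dImgMap (W : Submodule Ω ↥FΩ) : ↥W →ₗ[Ω] ↥(t2dImg FΩ W) where
  toFun w := ⟨((w : ↥FΩ) : LaurentSeries Ω), ⟨w, w.2, rfl⟩⟩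
  map_add' _ _ := rfl
  map_smul' c w := Subtype.ext (t2d_coe_smul FΩ c w)

theorem coe_t2dImgMap (W : Submodule Ω ↥FΩ) (w : ↥W) :
    ((t2dImgMap FΩ W w : ↥(t2dImg FΩ W)) : LaurentSeries Ω) = ((w : ↥FΩ) : LaurentSeries Ω) := rfl

theorem t2dImgMap_bijective (W : Submodule Ω ↥FΩ) : Function.Bijective (t2dImgMap FΩ W) := by
  constructor
  · intro w w' h
    apply Subtype.ext
    apply Subtype.ext
    have := congrArg (Subtype.val : ↥(t2dImg FΩ W) → LaurentSeries Ω) h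
    exact this
  · rintro ⟨v, w, hw, rfl⟩
    exact ⟨⟨w, hw⟩, rfl⟩

/-- `W ≃ t2dImg W` -/
noncomputable def t2dImgEquiv (W : Submodule Ω ↥FΩ) : ↥W ≃ₗ[Ω] ↥(t2dImg FΩ W) :=
  LinearEquiv.ofBijective (t2dImgMap FΩ W) (t2dImgMap_bijective FΩ W)

variable (S : Set (Ω →+* Ω)) (hS : ∀ c : Ω, (∀ σ ∈ S, σ c = c) → c ∈ j.range)
  (hF' : ∀ t : LaurentSeries k, coeffMap j t ∈ FΩ → t ∈ Fk)

include hS hF' in
/-- **Galois descent of dimensions for function fields** -/
theorem t2d_finrank_comap (W : Submodule Ω ↥FΩ) [FiniteDimensional Ω W]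
    (hW : ∀ σ ∈ S, ∀ w ∈ W, ∃ w' ∈ W, (w' : LaurentSeries Ω) = coeffMap σ (w : LaurentSeries Ω))
    (Wk : Submodule k ↥Fk) (hWk : ∀ t : ↥Fk, t ∈ Wk ↔ t2dBc j Fk FΩ hF t ∈ W) :
    FiniteDimensional k ↥Wk ∧ finrank k ↥Wk = finrank Ω ↥W := by
  set V : Submodule Ω (LaurentSeries Ω) := t2dImg FΩ W with hVdef
  have eV : ↥W ≃ₗ[Ω] ↥V := t2dImgEquiv FΩ W
  haveI : FiniteDimensional Ω ↥V := Module.Finite.equiv eV
  have hV : ∀ σ ∈ S, ∀ v ∈ V, coeffMap σ v ∈ V := by
    rintro σ hσ _ ⟨w, hw, rfl⟩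
    obtain ⟨w', hw', hww'⟩ := hW σ hσ w hw
    exact ⟨w', hw', hww'⟩
  -- the comparison map `Wk → t2dPull j V`
  have hmem : ∀ t : ↥Wk, ((t : ↥Fk) : LaurentSeries k) ∈ t2dPull j V := by
    intro t
    rw [mem_t2dPull]
    exact ⟨t2dBc j Fk FΩ hF t, (hWk t).mp t.2, rfl⟩
  let g : ↥Wk →ₗ[k] ↥(t2dPull j V) :=
    { toFun := fun t => ⟨((t : ↥Fk) : LaurentSeries k), hmem t⟩
      map_add' := fun _ _ => rfl
      map_smul' := fun c t => Subtype.ext (t2d_coe_smul Fk c t) }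
  have hg : Function.Bijective g := by
    constructor
    · intro s t h
      apply Subtype.ext
      apply Subtype.ext
      have := congrArg (Subtype.val : ↥(t2dPull j V) → LaurentSeries k) h
      exact this
    · rintro ⟨s, hs⟩
      rw [mem_t2dPull] at hs
      obtain ⟨w, hw, hws⟩ := hs
      have hsF : s ∈ Fk := hF' s (by rw [← hws]; exact w.2)
      have hbc : t2dBc j Fk FΩ hF ⟨s, hsF⟩ = w := Subtype.ext hws.symm
      refine ⟨⟨⟨s, hsF⟩, (hWk _).mpr (by rw [hbc]; exact hw)⟩, rfl⟩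
  have e := LinearEquiv.ofBijective g hg
  haveI := t2d_finiteDimensional_pull j S hS V hV
  refine ⟨Module.Finite.equiv e.symm, ?_⟩
  rw [e.finrank_eq, t2d_finrank_pull j S hS V hV, eV.finrank_eq]

end Fermat.Agent.T2
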