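/-
T2-D (helper5), part 9: degrees under change of the constant field.

`Fk ⊆ k((q))`, `FΩ ⊆ Ω((q))` subfields with `j(Fk) ⊆ FΩ` (`j : k → Ω` coefficientwise), `z ∈ Fk`
transcendental over `k`:
* `t2d_transcendental_bc`: `j(z)` is transcendental over `Ω`;
* `t2d_linearIndependent_bc`: a family of `Fk` which is linearly independent over `k(z)` stays
  linearly independent over `Ω(j z)`;
* `t2d_finrank_adjoin_le`: `[Fk : k(z)] ≤ [FΩ : Ω(j z)]`.
Proof: apply a `k`-linear functional `ℓ : Ω → k` coefficientwise.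
-/
import Fermat.Agent.Lib.T2.Desc.Field

set_option autoImplicit false
set_option linter.unusedSectionVars false
set_option linter.style.haveILetI false
set_option synthInstance.maxHeartbeats 400000

namespace Fermat.Agent.T2

open ModularCurve Module Polynomial IntermediateField

section LamPoly

variable {k Ω : Type*} [Field k] [Field Ω] (j : k →+* Ω) (ℓ : Ω →+ k)

/-- the coefficientwise image of a polynomial under an additive map -/
noncomputable def t2dLamPoly (q : Polynomial Ω) : Polynomial k :=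
  ∑ i ∈ Finset.range (q.natDegree + 1), Polynomial.monomial i (ℓ (q.coeff i))

theorem coeff_t2dLamPoly (q : Polynomial Ω) (d : ℕ) :
    (t2dLamPoly ℓ q).coeff d = ℓ (q.coeff d) := by
  rw [t2dLamPoly, Polynomial.finsetSum_coeff]
  simp only [Polynomial.coeff_monomial]
  rw [Finset.sum_ite_eq' (Finset.range (q.natDegree + 1)) d (fun i => ℓ (q.coeff i))]
  split_ifs with h
  · rfl
  · rw [Finset.mem_range, not_lt] at h
    rw [Polynomial.coeff_eq_zero_of_natDegree_lt (by omega), map_zero]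

variable (hℓ : ∀ (a : k) (c : Ω), ℓ (j a * c) = a * ℓ c)

include hℓ

theorem t2dLam_aeval_mul_lamPoly (x w : LaurentSeries k) (q : Polynomial Ω) :
    t2dLam ℓ (aeval (coeffMap j x) q * coeffMap j w) = aeval x (t2dLamPoly ℓ q) * w := by
  rw [t2dLamPoly, aeval_def, Polynomial.eval₂_eq_sum_range, Finset.sum_mul, map_sum, map_sum,
    Finset.sum_mul]
  refine Finset.sum_congr rfl (fun i _ => ?_)
  rw [mul_assoc, ← map_pow, ← map_mul, t2dLam_algebraMap_mul_coeffMap j ℓ hℓ,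
    Polynomial.aeval_monomial, mul_assoc]

/-- a linear relation with polynomial coefficients descends along `ℓ` -/
theorem t2d_sum_aeval_descend (x : LaurentSeries k) {ι : Type*} (s : Finset ι)
    (b : ι → LaurentSeries k) (P : ι → Polynomial Ω)
    (h : ∑ i ∈ s, aeval (coeffMap j x) (P i) * coeffMap j (b i) = 0) :
    ∑ i ∈ s, aeval x (t2dLamPoly ℓ (P i)) * b i = 0 := by
  have := congrArg (t2dLam ℓ) h
  rw [map_sum, map_zero] at this
  rw [← this]
  refine Finset.sum_congr rfl (fun i _ => ?_)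
  rw [t2dLam_aeval_mul_lamPoly j ℓ hℓ]

omit hℓ in
/-- a `k`-linear functional on `Ω` which does not vanish at a given `c ≠ 0` -/
theorem t2d_exists_functional_ne {c : Ω} (hc : c ≠ 0) :
    ∃ ℓ : Ω →+ k, (∀ (a : k) (y : Ω), ℓ (j a * y) = a * ℓ y) ∧ ℓ c ≠ 0 := by
  obtain ⟨ℓ₀, hℓ₀, h1⟩ := t2d_exists_functional j
  refine ⟨ℓ₀.comp (AddMonoidHom.mulLeft c⁻¹), fun a y => ?_, ?_⟩
  · show ℓ₀ (c⁻¹ * (j a * y)) = a * ℓ₀ (c⁻¹ * y)
    rw [← hℓ₀, mul_left_comm]
  · show ℓ₀ (c⁻¹ * c) ≠ 0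
    rw [inv_mul_cancel₀ hc, h1]
    exact one_ne_zero

end LamPoly

section Field

variable {k Ω : Type*} [Field k] [Field Ω] (j : k →+* Ω)
  (Fk : IntermediateField k (LaurentSeries k)) (FΩ : IntermediateField Ω (LaurentSeries Ω))
  (hF : ∀ t ∈ Fk, coeffMap j t ∈ FΩ)

/-- the key descent step: a relation `∑ Pᵢ(j z) j(bᵢ) = 0` over `Ω[X]` forces all `Pᵢ = 0` if the
`bᵢ` are independent over `k(z)` and `z` is transcendental -/
theorem t2d_poly_eq_zero_of_sum_eq_zero (z : ↥Fk) (hz : Transcendental k z) {ι : Type*}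
    (b : ι → ↥Fk) (hb : LinearIndependent ↥k⟮z⟯ b) (s : Finset ι) (P : ι → Polynomial Ω)
    (h : ∑ i ∈ s, aeval (t2dBc j Fk FΩ hF z) (P i) * t2dBc j Fk FΩ hF (b i) = 0) :
    ∀ i ∈ s, P i = 0 := by
  by_contra hcon
  push Not at hcon
  obtain ⟨i₀, hi₀, hP⟩ := hcon
  obtain ⟨d, hd⟩ : ∃ d, (P i₀).coeff d ≠ 0 := by
    by_contra hall
    push Not at hall
    exact hP (Polynomial.ext fun n => by rw [hall n, Polynomial.coeff_zero])
  obtain ⟨ℓ, hℓ, hℓc⟩ := t2d_exists_functional_ne (k := k) j hd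
  -- the relation in `Ω((q))`
  have h' : ∑ i ∈ s, aeval (coeffMap j (z : LaurentSeries k)) (P i) *
      coeffMap j ((b i : ↥Fk) : LaurentSeries k) = 0 := by
    have := congrArg (Subtype.val : ↥FΩ → LaurentSeries Ω) h
    rw [AddSubmonoidClass.coe_finsetSum, ZeroMemClass.coe_zero] at this
    simpa only [MulMemClass.coe_mul, t2d_coe_aeval_Ω, coe_t2dBc] using this
  have h2 := t2d_sum_aeval_descend j ℓ hℓ (z : LaurentSeries k) s
    (fun i => ((b i : ↥Fk) : LaurentSeries k)) P h'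
  -- back in `Fk`
  have hmem : ∀ p : Polynomial k, aeval z p ∈ k⟮z⟯ := fun p => by
    have h1 : aeval z p ∈ Algebra.adjoin k {z} := by
      rw [Algebra.adjoin_singleton_eq_range_aeval]
      exact ⟨p, rfl⟩
    exact IntermediateField.algebra_adjoin_le_adjoin k _ h1
  let c : ι → ↥k⟮z⟯ := fun i => ⟨aeval z (t2dLamPoly ℓ (P i)), hmem _⟩
  have h3 : ∑ i ∈ s, c i • b i = 0 := by
    apply Subtype.ext
    rw [AddSubmonoidClass.coe_finsetSum, ZeroMemClass.coe_zero, ← h2]
    refine Finset.sum_congr rfl fun i _ => ?_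
    have h31 : c i • b i = aeval z (t2dLamPoly ℓ (P i)) * b i := by
      rw [IntermediateField.smul_def, smul_eq_mul]
    rw [h31, MulMemClass.coe_mul, t2d_coe_aeval_k]
  have h4 : c i₀ = 0 := linearIndependent_iff'.mp hb s c h3 i₀ hi₀
  have h5 : aeval z (t2dLamPoly ℓ (P i₀)) = 0 := congrArg Subtype.val h4
  have h6 := transcendental_iff.mp hz _ h5
  have h7 := congrArg (fun p : Polynomial k => p.coeff d) h6
  simp only [coeff_t2dLamPoly, Polynomial.coeff_zero] at h7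
  exact hℓc h7

/-- `j(z)` is transcendental over `Ω` -/
theorem t2d_transcendental_bc (z : ↥Fk) (hz : Transcendental k z) :
    Transcendental Ω (t2dBc j Fk FΩ hF z) := by
  rw [transcendental_iff]
  intro p hp
  have hb : LinearIndependent ↥k⟮z⟯ (fun _ : Unit => (1 : ↥Fk)) :=
    LinearIndependent.of_subsingleton () one_ne_zero
  have := t2d_poly_eq_zero_of_sum_eq_zero j Fk FΩ hF z hz (fun _ : Unit => (1 : ↥Fk)) hb
    {()} (fun _ => p) (by
      rw [Finset.sum_singleton, map_one, mul_one]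
      exact hp)
  exact this () (Finset.mem_singleton_self _)

/-- **linear independence over `k(z)` is preserved by the change of the constant field** -/
theorem t2d_linearIndependent_bc (z : ↥Fk) (hz : Transcendental k z) {ι : Type*}
    (b : ι → ↥Fk) (hb : LinearIndependent ↥k⟮z⟯ b) :
    LinearIndependent ↥Ω⟮t2dBc j Fk FΩ hF z⟯ (fun i => t2dBc j Fk FΩ hF (b i)) := by
  classical
  set zK := t2dBc j Fk FΩ hF z with hzK
  rw [linearIndependent_iff']
  intro s g hg i₀ hi₀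
  -- numerators and denominators
  have hex : ∀ i, ∃ r t : Polynomial Ω, aeval zK t ≠ 0 ∧
      ((g i : ↥Ω⟮zK⟯) : ↥FΩ) * aeval zK t = aeval zK r := by
    intro i
    obtain ⟨r, t, hrt⟩ := (IntermediateField.mem_adjoin_simple_iff Ω _).mp (g i).2
    by_cases ht : aeval zK t = 0
    · refine ⟨0, 1, ?_, ?_⟩
      · rw [map_one]; exact one_ne_zero
      · rw [hrt, ht, div_zero, zero_mul, map_zero]
    · exact ⟨r, t, ht, by rw [hrt, div_mul_cancel₀ _ ht]⟩
  choose R T hT hRT using hex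
  set P : ι → Polynomial Ω := fun i => R i * ∏ i' ∈ s.erase i, T i' with hP
  have hD : aeval zK (∏ i ∈ s, T i) ≠ 0 := by
    rw [map_prod]
    exact Finset.prod_ne_zero_iff.mpr fun i _ => hT i
  have hgP : ∀ i ∈ s, ((g i : ↥Ω⟮zK⟯) : ↥FΩ) * aeval zK (∏ i ∈ s, T i) = aeval zK (P i) := by
    intro i hi
    rw [← Finset.mul_prod_erase s T hi, map_mul, ← mul_assoc, hRT, hP, map_mul]
  have hsum : ∑ i ∈ s, aeval zK (P i) * t2dBc j Fk FΩ hF (b i) = 0 := by
    have h1 : ∑ i ∈ s, aeval zK (P i) * t2dBc j Fk FΩ hF (b i) =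
        aeval zK (∏ i ∈ s, T i) * ∑ i ∈ s, g i • t2dBc j Fk FΩ hF (b i) := by
      rw [Finset.mul_sum]
      refine Finset.sum_congr rfl fun i hi => ?_
      rw [← hgP i hi, IntermediateField.smul_def, smul_eq_mul]
      ring
    rw [h1, hg, mul_zero]
  have hzero := t2d_poly_eq_zero_of_sum_eq_zero j Fk FΩ hF z hz b hb s P hsum
  have h2 := hgP i₀ hi₀
  rw [hzero i₀ hi₀, map_zero] at h2
  have h3 : ((g i₀ : ↥Ω⟮zK⟯) : ↥FΩ) = 0 := (mul_eq_zero.mp h2).resolve_right hD
  exact Subtype.ext h3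

/-- **`[Fk : k(z)] ≤ [FΩ : Ω(j z)]`** -/
theorem t2d_finrank_adjoin_le (z : ↥Fk) (hz : Transcendental k z)
    [FiniteDimensional ↥Ω⟮t2dBc j Fk FΩ hF z⟯ ↥FΩ] :
    FiniteDimensional ↥k⟮z⟯ ↥Fk ∧
      finrank ↥k⟮z⟯ ↥Fk ≤ finrank ↥Ω⟮t2dBc j Fk FΩ hF z⟯ ↥FΩ := by
  have hrank : Module.rank ↥k⟮z⟯ ↥Fk ≤
      ((finrank ↥Ω⟮t2dBc j Fk FΩ hF z⟯ ↥FΩ : ℕ) : Cardinal) := by
    apply rank_le
    intro s hs
    have h1 := t2d_linearIndependent_bc j Fk FΩ hF z hz _ hs
    have h2 := h1.fintype_card_le_finrank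
    simpa using h2
  have hfin : FiniteDimensional ↥k⟮z⟯ ↥Fk := by
    haveI : IsNoetherian ↥k⟮z⟯ ↥Fk :=
      IsNoetherian.iff_rank_lt_aleph0.mpr (lt_of_le_of_lt hrank (Cardinal.natCast_lt_aleph0))
    infer_instance
  exact ⟨hfin, Module.finrank_le_of_rank_le hrank⟩

end Field

end Fermat.Agent.T2
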