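/-
T2-D (helper5), part 4: the Riemann–Roch numbers at a finite level.

`Fk ⊆ k((q))`, `FΩ ⊆ Ω((q))` with descent data `D : T2dDesc j Fk FΩ` (a set `S` of endomorphisms of
`Ω` with fixed field `j(k)`, stabilising `FΩ`, membership in `Fk` descends).  For a chart `x ∈ Fk`:
* `t2d_finrank_tbLbar`: `finrank k (tbLbar x a b) = finrank Ω (tbLbar (j x) a b)`;
* for a divisor `E` of `FΩ` with `m E = div (j z)`, `z ∈ Fk`: the twisted chart modules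
  `t2dL1 x E`, `t2dL1 x⁻¹ E ⊆ Fk`, their `T2Twist`-axioms (`t2d_mul_mem`, `t2d_pow_mem`,
  `t2d_exists1/2`) and `t2d_finrank_tbL`.
-/
import Fermat.Agent.Lib.T2.Desc.Field
import Fermat.Agent.Lib.T1.Core.Twist

set_option autoImplicit false
set_option linter.unusedSectionVars false
set_option linter.style.haveILetI false

namespace Fermat.Agent.T2

open ModularCurve Module Polynomial AlgebraicCurve IntermediateField Fermat.Agent.Curve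
  Fermat.Agent.T1

/-- descent data for a pair of subfields of Laurent series -/
structure T2dDesc {k Ω : Type*} [Field k] [Field Ω] (j : k →+* Ω)
    (Fk : IntermediateField k (LaurentSeries k)) (FΩ : IntermediateField Ω (LaurentSeries Ω)) where
  /-- the "Galois group" -/
  S : Set (Ω →+* Ω)
  fixed : ∀ c : Ω, (∀ σ ∈ S, σ c = c) → c ∈ j.range
  fix_j : ∀ σ ∈ S, ∀ a : k, σ (j a) = j a
  up : ∀ t ∈ Fk, coeffMap j t ∈ FΩ
  down : ∀ t : LaurentSeries k, coeffMap j t ∈ FΩ → t ∈ Fk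
  stable : ∀ σ ∈ S, ∀ t ∈ FΩ, coeffMap σ t ∈ FΩ

namespace T2dDesc

variable {k Ω : Type*} [Field k] [Field Ω] {j : k →+* Ω}
  {Fk : IntermediateField k (LaurentSeries k)} {FΩ : IntermediateField Ω (LaurentSeries Ω)}
  (D : T2dDesc j Fk FΩ)

/-- the base change `Fk → FΩ` -/
noncomputable def bc : ↥Fk →+* ↥FΩ := t2dBc j Fk FΩ D.up

theorem coe_bc (f : ↥Fk) : ((D.bc f : ↥FΩ) : LaurentSeries Ω) = coeffMap j (f : LaurentSeries k) :=
  rfl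

/-- the action of `σ ∈ S` on `FΩ` -/
noncomputable def sig (σ : Ω →+* Ω) (hσ : σ ∈ D.S) : ↥FΩ →+* ↥FΩ :=
  t2dBc σ FΩ FΩ (D.stable σ hσ)

theorem coe_sig (σ : Ω →+* Ω) (hσ : σ ∈ D.S) (f : ↥FΩ) :
    ((D.sig σ hσ f : ↥FΩ) : LaurentSeries Ω) = coeffMap σ (f : LaurentSeries Ω) := rfl

theorem sig_algebraMap (σ : Ω →+* Ω) (hσ : σ ∈ D.S) (c : Ω) :
    D.sig σ hσ (algebraMap Ω ↥FΩ c) = algebraMap Ω ↥FΩ (σ c) :=
  t2dBc_algebraMap σ FΩ FΩ (D.stable σ hσ) c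

theorem sig_bc (σ : Ω →+* Ω) (hσ : σ ∈ D.S) (f : ↥Fk) : D.sig σ hσ (D.bc f) = D.bc f := by
  apply Subtype.ext
  rw [coe_sig, coe_bc, coeffMap_coeffMap]
  exact coeffMap_congr (RingHom.ext fun a => D.fix_j σ hσ a) _

/-- integrality ascends and descends -/
theorem isIntegral_bc_iff (x u : ↥Fk) :
    IsIntegral ↥(Algebra.adjoin k {x}) u ↔
      IsIntegral ↥(Algebra.adjoin Ω {D.bc x}) (D.bc u) :=
  t2d_isIntegral_bc_iff j Fk FΩ D.up x u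

/-- `σ ∈ S` preserves integrality over `Ω[j x]` -/
theorem isIntegral_sig (σ : Ω →+* Ω) (hσ : σ ∈ D.S) (x : ↥Fk) {f : ↥FΩ}
    (h : IsIntegral ↥(Algebra.adjoin Ω {D.bc x}) f) :
    IsIntegral ↥(Algebra.adjoin Ω {D.bc x}) (D.sig σ hσ f) := by
  have := t2d_isIntegral_map σ (D.sig σ hσ) (D.sig_algebraMap σ hσ) h
  rwa [D.sig_bc σ hσ] at this

/-- **descent of dimensions** for an `S`-stable subspace of `FΩ` -/
theorem finrank_comap (W : Submodule Ω ↥FΩ) [FiniteDimensional Ω W]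
    (hW : ∀ (σ : Ω →+* Ω) (hσ : σ ∈ D.S), ∀ w ∈ W, D.sig σ hσ w ∈ W)
    (Wk : Submodule k ↥Fk) (hWk : ∀ t : ↥Fk, t ∈ Wk ↔ D.bc t ∈ W) :
    FiniteDimensional k ↥Wk ∧ finrank k ↥Wk = finrank Ω ↥W :=
  t2d_finrank_comap j Fk FΩ D.up D.S D.fixed D.down W
    (fun σ hσ w hw => ⟨D.sig σ hσ w, hW σ hσ w hw, rfl⟩) Wk hWk

/-! ### The untwisted spaces `L̄(a, b)` -/

theorem mem_tbLbar_iff (x : ↥Fk) (a b : ℕ) (t : ↥Fk) :
    t ∈ tbLbar (K := k) x a b ↔ D.bc t ∈ tbLbar (K := Ω) (D.bc x) a b := by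
  rw [mem_tbLbar, mem_tbLbar, D.isIntegral_bc_iff x, D.isIntegral_bc_iff x⁻¹, map_mul, map_mul,
    map_pow, map_pow, map_inv₀]

theorem sig_mem_tbLbar (σ : Ω →+* Ω) (hσ : σ ∈ D.S) (x : ↥Fk) (a b : ℕ) {w : ↥FΩ}
    (hw : w ∈ tbLbar (K := Ω) (D.bc x) a b) :
    D.sig σ hσ w ∈ tbLbar (K := Ω) (D.bc x) a b := by
  rw [mem_tbLbar] at hw ⊢
  constructor
  · have := D.isIntegral_sig σ hσ x hw.1
    rwa [map_mul, map_pow, D.sig_bc] at this
  · have h2 := hw.2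
    rw [← map_inv₀] at h2 ⊢
    have := D.isIntegral_sig σ hσ x⁻¹ h2
    rwa [map_mul, map_pow, D.sig_bc] at this

/-- **`dim_k L̄_k(a, b) = dim_Ω L̄_Ω(a, b)`** -/
theorem finrank_tbLbar (x : ↥Fk) (a b : ℕ)
    [FiniteDimensional Ω ↥(tbLbar (K := Ω) (D.bc x) a b)] :
    FiniteDimensional k ↥(tbLbar (K := k) x a b) ∧
      finrank k ↥(tbLbar (K := k) x a b) = finrank Ω ↥(tbLbar (K := Ω) (D.bc x) a b) :=
  D.finrank_comap _ (fun σ hσ _ hw => D.sig_mem_tbLbar σ hσ x a b hw) _ (D.mem_tbLbar_iff x a b)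

end T2dDesc

end Fermat.Agent.T2
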