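/-
T2-D (helper5), part 5: the twisted chart modules at a finite level.

For descent data `D : T2dDesc j Fk FΩ` (`Ω` algebraically closed), a chart `x ∈ Fk` whose image
`X = j(x)` is a separating generator of `FΩ / Ω`, a Kummer function `z ∈ Fk` and a divisor `E` of `FΩ`
with `m E = div (j z)`:
`D.L1 x E = {s ∈ Fk | j(s) ∈ twL1 X E}` (sections of `𝒪(E)` on the chart `x ≠ ∞`, at level `k`),
the axioms of `T2Twist` (`mul_mem_L1`, `pow_mem_L1`, `exists1`, `exists2`) and the dimension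
`finrank k (tbL x (L1 x E) (L1 x⁻¹ E) a b) = finrank Ω (tbL X (twL1 X E) (twL1 X⁻¹ E) a b)`.
-/
import Fermat.Agent.Lib.T2.Desc.RR

set_option autoImplicit false
set_option linter.unusedSectionVars false
set_option linter.style.haveILetI false

namespace Fermat.Agent.T2

open ModularCurve Module Polynomial AlgebraicCurve IntermediateField Fermat.Agent.Curve
  Fermat.Agent.T1

section Converse

variable {K F : Type*} [Field K] [Field F] [Algebra K F]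

/-- the converse of `tw_isIntegral_pow_mul` -/
theorem t2d_mem_twL1_of_isIntegral {x : F} {E : Divisor K F} {y : F} {m : ℕ} (hm : 0 < m)
    (hy : y ≠ 0) (hE : ∀ v : Place K F, (m : ℤ) * E v = v.ord y) {s : F}
    (h : IsIntegral ↥(Algebra.adjoin K {x}) (s ^ m * y)) : s ∈ twL1 x E := by
  rw [mem_twL1]
  intro v hv
  rcases eq_or_ne s 0 with rfl | hs0
  · left; rfl
  right
  have h1 := ta_ord_nonneg_of_isIntegral h v hv
  rw [v.ord_mul (pow_ne_zero m hs0) hy, ← zpow_natCast, v.ord_zpow, ← hE v] at h1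
  have hm' : (0 : ℤ) < m := by exact_mod_cast hm
  have h2 : 0 ≤ (m : ℤ) * (v.ord s + E v) := by linarith
  have h3 : 0 ≤ v.ord s + E v := nonneg_of_mul_nonneg_right h2 hm'
  omega

theorem t2d_mem_twL1_iff [IsAlgClosed K] {x : F} (hx : IsFunctionFieldGen K F x)
    [Algebra.IsSeparable K⟮x⟯ F] {E : Divisor K F} {y : F} {m : ℕ} (hm : 0 < m)
    (hy : y ≠ 0) (hE : ∀ v : Place K F, (m : ℤ) * E v = v.ord y) {s : F} :
    s ∈ twL1 x E ↔ IsIntegral ↥(Algebra.adjoin K {x}) (s ^ m * y) :=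
  ⟨fun hs => tw_isIntegral_pow_mul hx hy hE hs, t2d_mem_twL1_of_isIntegral hm hy hE⟩

end Converse

namespace T2dDesc

variable {k Ω : Type*} [Field k] [Field Ω] {j : k →+* Ω}
  {Fk : IntermediateField k (LaurentSeries k)} {FΩ : IntermediateField Ω (LaurentSeries Ω)}
  (D : T2dDesc j Fk FΩ)

theorem bc_algebraMap (a : k) : D.bc (algebraMap k ↥Fk a) = algebraMap Ω ↥FΩ (j a) :=
  t2dBc_algebraMap j Fk FΩ D.up a

theorem bc_smul (a : k) (s : ↥Fk) : D.bc (a • s) = j a • D.bc s := by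
  rw [Algebra.smul_def, map_mul, D.bc_algebraMap, ← Algebra.smul_def]

/-- sections of `𝒪(E)` on the chart where `x` is regular, at level `k` -/
def L1 (x : ↥Fk) (E : Divisor Ω ↥FΩ) : Submodule k ↥Fk where
  carrier := {s | D.bc s ∈ twL1 (D.bc x) E}
  zero_mem' := by
    show D.bc 0 ∈ twL1 (D.bc x) E
    rw [map_zero]
    exact Submodule.zero_mem _
  add_mem' := by
    intro s t hs ht
    show D.bc (s + t) ∈ twL1 (D.bc x) E
    rw [map_add]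
    exact Submodule.add_mem _ hs ht
  smul_mem' := by
    intro a s hs
    show D.bc (a • s) ∈ twL1 (D.bc x) E
    rw [D.bc_smul]
    exact Submodule.smul_mem _ _ hs

theorem mem_L1 {x : ↥Fk} {E : Divisor Ω ↥FΩ} {s : ↥Fk} :
    s ∈ D.L1 x E ↔ D.bc s ∈ twL1 (D.bc x) E := Iff.rfl

theorem mem_L1_inv {x : ↥Fk} {E : Divisor Ω ↥FΩ} {s : ↥Fk} :
    s ∈ D.L1 x⁻¹ E ↔ D.bc s ∈ twL1 (D.bc x)⁻¹ E := by
  rw [mem_L1, map_inv₀]

/-- `IntCl(k[x]) · L₁ ⊆ L₁` -/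
theorem mul_mem_L1 {x : ↥Fk} {E : Divisor Ω ↥FΩ} {f s : ↥Fk}
    (hf : IsIntegral ↥(Algebra.adjoin k {x}) f) (hs : s ∈ D.L1 x E) : f * s ∈ D.L1 x E := by
  rw [mem_L1, map_mul]
  exact tw_mul_mem ((D.isIntegral_bc_iff x f).mp hf) hs

theorem mem_tbL_iff (x : ↥Fk) (E : Divisor Ω ↥FΩ) (a b : ℕ) (t : ↥Fk) :
    t ∈ tbL x (D.L1 x E) (D.L1 x⁻¹ E) a b ↔
      D.bc t ∈ tbL (D.bc x) (twL1 (D.bc x) E) (twL1 (D.bc x)⁻¹ E) a b := by
  rw [mem_tbL, mem_tbL, mem_L1, mem_L1_inv, map_mul, map_mul, map_pow, map_pow, map_inv₀]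

variable [IsAlgClosed Ω] {x : ↥Fk} (hX : IsFunctionFieldGen Ω ↥FΩ (D.bc x))
  [Algebra.IsSeparable Ω⟮D.bc x⟯ ↥FΩ] {E : Divisor Ω ↥FΩ} {z : ↥Fk} {m : ℕ}
  (hz : z ≠ 0) (hE : ∀ v : Place Ω ↥FΩ, (m : ℤ) * E v = v.ord (D.bc z))

include hX hz hE

/-- `s ∈ L₁ ⟹ sᵐ z` is integral over `k[x]` -/
theorem pow_mem_L1 {s : ↥Fk} (hs : s ∈ D.L1 x E) :
    IsIntegral ↥(Algebra.adjoin k {x}) (s ^ m * z) := by
  rw [D.isIntegral_bc_iff, map_mul, map_pow]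
  have hZ : D.bc z ≠ 0 := (map_ne_zero D.bc).mpr hz
  exact tw_isIntegral_pow_mul hX hZ hE hs

/-- the same on the chart `x ≠ 0` -/
theorem pow_mem_L1_inv {s : ↥Fk} (hs : s ∈ D.L1 x⁻¹ E) :
    IsIntegral ↥(Algebra.adjoin k {x⁻¹}) (s ^ m * z) := by
  rw [D.isIntegral_bc_iff, map_mul, map_pow, map_inv₀]
  have hZ : D.bc z ≠ 0 := (map_ne_zero D.bc).mpr hz
  haveI := CurveP.isSeparable_adjoin_inv (K := Ω) (D.bc x)
  rw [mem_L1_inv] at hs
  exact tw_isIntegral_pow_mul (CurveP.isFunctionFieldGen_inv hX) hZ hE hs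

omit hz hE in
theorem exists1 {s : ↥Fk} (hs : s ∈ D.L1 x E) : ∃ a : ℕ, x⁻¹ ^ a * s ∈ D.L1 x⁻¹ E := by
  obtain ⟨a, ha⟩ := tw_exists_pow_mul_mem hX E hs
  refine ⟨a, ?_⟩
  rw [mem_L1_inv, map_mul, map_pow, map_inv₀]
  exact ha

omit hz hE in
theorem exists2 {s : ↥Fk} (hs : s ∈ D.L1 x⁻¹ E) : ∃ b : ℕ, x ^ b * s ∈ D.L1 x E := by
  haveI := CurveP.isSeparable_adjoin_inv (K := Ω) (D.bc x)
  rw [mem_L1_inv] at hs
  obtain ⟨b, hb⟩ := tw_exists_pow_mul_mem (CurveP.isFunctionFieldGen_inv hX) E hs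
  refine ⟨b, ?_⟩
  rw [mem_L1, map_mul, map_pow]
  rwa [inv_inv] at hb

/-- `σ ∈ S` stabilises the twisted Riemann–Roch spaces -/
theorem sig_mem_tbL (hm : 0 < m) (σ : Ω →+* Ω) (hσ : σ ∈ D.S) (a b : ℕ) {w : ↥FΩ}
    (hw : w ∈ tbL (D.bc x) (twL1 (D.bc x) E) (twL1 (D.bc x)⁻¹ E) a b) :
    D.sig σ hσ w ∈ tbL (D.bc x) (twL1 (D.bc x) E) (twL1 (D.bc x)⁻¹ E) a b := by
  have hZ : D.bc z ≠ 0 := (map_ne_zero D.bc).mpr hz
  haveI := CurveP.isSeparable_adjoin_inv (K := Ω) (D.bc x)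
  have hXi := CurveP.isFunctionFieldGen_inv hX
  rw [mem_tbL] at hw ⊢
  rw [t2d_mem_twL1_iff hX hm hZ hE, t2d_mem_twL1_iff hXi hm hZ hE] at hw ⊢
  constructor
  · have := D.isIntegral_sig σ hσ x hw.1
    rwa [map_mul, map_pow, map_mul, map_pow, D.sig_bc, D.sig_bc] at this
  · have h2 := hw.2
    rw [← map_inv₀] at h2 ⊢
    have := D.isIntegral_sig σ hσ x⁻¹ h2
    rwa [map_mul, map_pow, map_mul, map_pow, D.sig_bc, D.sig_bc] at this

/-- **`dim_k L_k(a, b) = dim_Ω L_Ω(a, b)`** for the twisted spaces -/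
theorem finrank_tbL (hm : 0 < m) (a b : ℕ) :
    FiniteDimensional k ↥(tbL x (D.L1 x E) (D.L1 x⁻¹ E) a b) ∧
      finrank k ↥(tbL x (D.L1 x E) (D.L1 x⁻¹ E) a b) =
        finrank Ω ↥(tbL (D.bc x) (twL1 (D.bc x) E) (twL1 (D.bc x)⁻¹ E) a b) := by
  haveI := tw_finiteDimensional_tbL hX E a b
  exact D.finrank_comap _ (fun σ hσ _ hw => D.sig_mem_tbL hX hz hE hm σ hσ a b hw) _
    (D.mem_tbL_iff x E a b)

end T2dDesc

end Fermat.Agent.T2
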