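/-
T2-D (helper5), part 6: the Riemann–Roch numbers of `T2Setup` / `T2Twist` at a finite level.

For descent data `D : T2dDesc j Fk FΩ` (`Ω` algebraically closed) and a chart `x ∈ Fk` whose image is
a separating generator of `FΩ / Ω`, with `n = [FΩ : Ω(x)]`, `g = genus FΩ`:
* `D.dim0`: `finrank k (tbLbar x a b) = (a + b) n + (1 - g)` for `2 g - 1 ≤ a + b`;
* `D.exists_twist`: for a Kummer function `z ∈ Fk` (`m ∣ ord_v z` at all places of `FΩ`) the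
  twisted chart modules `L1 = {s | sᵐ z integral over k[x]}`, `L2 = {s | sᵐ z integral over k[x⁻¹]}`
  are `k`-subspaces satisfying the axioms of `T2Twist`, with Riemann's inequality
  `(a + b) n + (1 - g) ≤ finrank k (tbL x L1 L2 a b)`.
-/
import Fermat.Agent.Lib.T2.Desc.Twist

set_option autoImplicit false
set_option linter.unusedSectionVars false
set_option linter.style.haveILetI false

namespace Fermat.Agent.T2

open ModularCurve Module Polynomial AlgebraicCurve IntermediateField Fermat.Agent.Curve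
  Fermat.Agent.T1

namespace T2dDesc

variable {k Ω : Type*} [Field k] [Field Ω] {j : k →+* Ω}
  {Fk : IntermediateField k (LaurentSeries k)} {FΩ : IntermediateField Ω (LaurentSeries Ω)}
  (D : T2dDesc j Fk FΩ)

variable [IsAlgClosed Ω] {x : ↥Fk} (hX : IsFunctionFieldGen Ω ↥FΩ (D.bc x))
  [Algebra.IsSeparable Ω⟮D.bc x⟯ ↥FΩ]

include hX

theorem finrank_pos_of_gen : 0 < finrank ↥Ω⟮D.bc x⟯ ↥FΩ := by
  haveI := hX.finite
  exact Module.finrank_pos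

theorem finiteDimensional_tbLbar (a b : ℕ) : FiniteDimensional k ↥(tbLbar (K := k) x a b) := by
  haveI := tw_finiteDimensional_tbLbar hX a b
  exact (D.finrank_tbLbar x a b).1

/-- **Riemann–Roch for `L̄(a, b)` at level `k`** -/
theorem dim0 (a b : ℕ) (h : 2 * CurveP.genusR Ω ↥FΩ ≤ a + b + 1) :
    (finrank k ↥(tbLbar (K := k) x a b) : ℤ) =
      ((a + b : ℕ) : ℤ) * finrank ↥Ω⟮D.bc x⟯ ↥FΩ + (1 - CurveP.genusR Ω ↥FΩ) := by
  haveI := tw_finiteDimensional_tbLbar hX a b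
  rw [(D.finrank_tbLbar x a b).2]
  refine tw_finrank_tbLbar hX a b ?_
  have hn := D.finrank_pos_of_gen hX
  have h1 : ((a + b : ℕ) : ℤ) ≤ ((a + b : ℕ) : ℤ) * finrank ↥Ω⟮D.bc x⟯ ↥FΩ := by
    have : (1 : ℤ) ≤ (finrank ↥Ω⟮D.bc x⟯ ↥FΩ : ℤ) := by exact_mod_cast hn
    nlinarith [Int.natCast_nonneg (a + b)]
  have h2 : (2 * CurveP.genusR Ω ↥FΩ : ℤ) ≤ ((a + b : ℕ) : ℤ) + 1 := by exact_mod_cast h
  linarith

/-- **Riemann's inequality for the twisted spaces at level `k`** -/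
theorem dimgen {E : Divisor Ω ↥FΩ} {z : ↥Fk} {m : ℕ} (hz : z ≠ 0)
    (hE : ∀ v : Place Ω ↥FΩ, (m : ℤ) * E v = v.ord (D.bc z)) (hE0 : Divisor.degree E = 0)
    (hm : 0 < m) (a b : ℕ) :
    ((a + b : ℕ) : ℤ) * finrank ↥Ω⟮D.bc x⟯ ↥FΩ + (1 - CurveP.genusR Ω ↥FΩ) ≤
      (finrank k ↥(tbL x (D.L1 x E) (D.L1 x⁻¹ E) a b) : ℤ) := by
  rw [(D.finrank_tbL hX hz hE hm a b).2]
  exact tw_le_finrank_tbL hX hE0 a b

/-- **the twisted chart modules of a Kummer function at level `k`** -/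
theorem exists_twist {z : ↥Fk} {m : ℕ} (hz : z ≠ 0) (hm : 0 < m)
    (hdiv : ∀ v : Place Ω ↥FΩ, (m : ℤ) ∣ v.ord (D.bc z)) :
    ∃ L1 L2 : Submodule k ↥Fk,
      (∀ s : ↥Fk, s ∈ L1 ↔ IsIntegral ↥(Algebra.adjoin k {x}) (s ^ m * z)) ∧
      (∀ s : ↥Fk, s ∈ L2 ↔ IsIntegral ↥(Algebra.adjoin k {x⁻¹}) (s ^ m * z)) ∧
      (∀ f s : ↥Fk, IsIntegral ↥(Algebra.adjoin k {x}) f → s ∈ L1 → f * s ∈ L1) ∧
      (∀ f s : ↥Fk, IsIntegral ↥(Algebra.adjoin k {x⁻¹}) f → s ∈ L2 → f * s ∈ L2) ∧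
      (∀ s ∈ L1, ∃ a : ℕ, x⁻¹ ^ a * s ∈ L2) ∧ (∀ s ∈ L2, ∃ b : ℕ, x ^ b * s ∈ L1) ∧
      (∀ a b : ℕ, FiniteDimensional k ↥(tbL x L1 L2 a b)) ∧
      ∀ a b : ℕ, ((a + b : ℕ) : ℤ) * finrank ↥Ω⟮D.bc x⟯ ↥FΩ + (1 - CurveP.genusR Ω ↥FΩ) ≤
        (finrank k ↥(tbL x L1 L2 a b) : ℤ) := by
  have hZ : D.bc z ≠ 0 := (map_ne_zero D.bc).mpr hz
  obtain ⟨E, hE, hE0⟩ := tw_exists_div hX hZ hm hdiv
  haveI := CurveP.isSeparable_adjoin_inv (K := Ω) (D.bc x)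
  have hXi := CurveP.isFunctionFieldGen_inv hX
  refine ⟨D.L1 x E, D.L1 x⁻¹ E, ?_, ?_, ?_, ?_, ?_, ?_, ?_, ?_⟩
  · intro s
    rw [mem_L1, t2d_mem_twL1_iff hX hm hZ hE, D.isIntegral_bc_iff, map_mul, map_pow]
  · intro s
    rw [mem_L1_inv, t2d_mem_twL1_iff hXi hm hZ hE, D.isIntegral_bc_iff, map_mul, map_pow,
      map_inv₀]
  · intro f s hf hs
    exact D.mul_mem_L1 hf hs
  · intro f s hf hs
    exact D.mul_mem_L1 hf hs
  · intro s hs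
    exact D.exists1 hX hs
  · intro s hs
    exact D.exists2 hX hs
  · intro a b
    exact (D.finrank_tbL hX hz hE hm a b).1
  · intro a b
    exact D.dimgen hX hz hE hE0 hm a b

end T2dDesc

end Fermat.Agent.T2
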