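/-
T2-D (helper5), part 7: the descent data for the fixed field of a subgroup of `Gal(ℚ̄/ℚ)`, in
particular for the DVR levels `L_H = tbFix 𝔓 H`, and the resulting Riemann–Roch numbers
`t2d_dim0`, `t2d_exists_twist` for `laurentBaseChange L_H F₀ ⊆ laurentBaseChange ℚ̄ F₀`
(any `F₀ ⊆ ℚ((q))`, e.g. `modularFunctionFieldFull N`, for which
`laurentBaseChange L_H F₀ = tbLevF 𝔓 N H`).
-/
import Fermat.Agent.Lib.T2.Desc.Dim
import Fermat.Agent.Lib.T1.Desc.Basic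
import Fermat.Agent.Lib.T1.Core.InertiaDVR

set_option autoImplicit false
set_option linter.unusedSectionVars false
set_option linter.style.haveILetI false
set_option synthInstance.maxHeartbeats 400000

namespace Fermat.Agent.T2

open ModularCurve Module Polynomial AlgebraicCurve IntermediateField Fermat.Agent.Curve
  Fermat.Agent.T1 Fermat.Agent.TW

local notation "Qb" => AlgebraicClosure ℚ
local notation "GQ" => (AlgebraicClosure ℚ ≃ₐ[ℚ] AlgebraicClosure ℚ)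

/-- **descent data for the fixed field of a subgroup `G ≤ Gal(ℚ̄/ℚ)`** -/
noncomputable def t2dFixed (G : Subgroup GQ) (F₀ : IntermediateField ℚ (LaurentSeries ℚ)) :
    T2dDesc (algebraMap ↥(IntermediateField.fixedField G) Qb)
      (laurentBaseChange ↥(IntermediateField.fixedField G) F₀) (laurentBaseChange Qb F₀) where
  S := {σ | ∃ τ ∈ G, σ = (τ : Qb →+* Qb)}
  fixed := by
    intro c hc
    have hmem : c ∈ IntermediateField.fixedField G := by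
      rw [IntermediateField.mem_fixedField_iff]
      intro τ hτ
      exact hc _ ⟨τ, hτ, rfl⟩
    exact ⟨⟨c, hmem⟩, rfl⟩
  fix_j := by
    rintro _ ⟨τ, hτ, rfl⟩ a
    have := a.2
    rw [IntermediateField.mem_fixedField_iff] at this
    exact this τ hτ
  up := fun t ht => tdx_coeffMap_mem F₀ _ ht
  down := fun t ht => tdx_mem_of_coeffMap_mem F₀ _ ht
  stable := by
    rintro _ ⟨τ, _, rfl⟩ t ht
    exact coeffMap_mem_laurentBaseChange τ ht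

/-- **descent data for the DVR level `L_H`** -/
noncomputable def t2dLevel (𝔓 : FFPlace) (H : Subgroup 𝔓.I)
    (F₀ : IntermediateField ℚ (LaurentSeries ℚ)) :
    T2dDesc (algebraMap ↥(tbFix 𝔓 H) Qb) (laurentBaseChange ↥(tbFix 𝔓 H) F₀)
      (laurentBaseChange Qb F₀) :=
  t2dFixed (H.map 𝔓.I.subtype) F₀

theorem coe_t2dLevel_bc (𝔓 : FFPlace) (H : Subgroup 𝔓.I)
    (F₀ : IntermediateField ℚ (LaurentSeries ℚ)) (f : ↥(laurentBaseChange ↥(tbFix 𝔓 H) F₀)) :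
    (((t2dLevel 𝔓 H F₀).bc f : ↥(laurentBaseChange Qb F₀)) : LaurentSeries Qb) =
      coeffMap (algebraMap ↥(tbFix 𝔓 H) Qb) (f : LaurentSeries ↥(tbFix 𝔓 H)) := rfl

section Final

variable (𝔓 : FFPlace) (H : Subgroup 𝔓.I) (F₀ : IntermediateField ℚ (LaurentSeries ℚ))
  {x : ↥(laurentBaseChange ↥(tbFix 𝔓 H) F₀)}
  (hX : IsFunctionFieldGen Qb ↥(laurentBaseChange Qb F₀) ((t2dLevel 𝔓 H F₀).bc x))

include hX

/-- separability is automatic in characteristic `0` -/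
theorem t2d_isSeparable :
    Algebra.IsSeparable ↥Qb⟮(t2dLevel 𝔓 H F₀).bc x⟯ ↥(laurentBaseChange Qb F₀) := by
  haveI := hX.finite
  haveI : CharZero ↥Qb⟮(t2dLevel 𝔓 H F₀).bc x⟯ :=
    charZero_of_injective_algebraMap (algebraMap Qb ↥Qb⟮(t2dLevel 𝔓 H F₀).bc x⟯).injective
  infer_instance

theorem t2d_finiteDimensional_tbLbar (a b : ℕ) :
    FiniteDimensional ↥(tbFix 𝔓 H) ↥(tbLbar (K := ↥(tbFix 𝔓 H)) x a b) := by
  haveI := t2d_isSeparable 𝔓 H F₀ hX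
  exact (t2dLevel 𝔓 H F₀).finiteDimensional_tbLbar hX a b

/-- **Riemann–Roch for `L̄(a, b)` at the DVR level `L_H`**: with `n = [F_K : ℚ̄(x)]` and `g` the genus
of `F_K = laurentBaseChange ℚ̄ F₀`, `dim_{L_H} L̄(a, b) = (a + b) n + 1 - g` for `a + b ≥ 2 g - 1` -/
theorem t2d_dim0 (a b : ℕ) (h : 2 * CurveP.genusR Qb ↥(laurentBaseChange Qb F₀) ≤ a + b + 1) :
    (finrank ↥(tbFix 𝔓 H) ↥(tbLbar (K := ↥(tbFix 𝔓 H)) x a b) : ℤ) =
      ((a + b : ℕ) : ℤ) * finrank ↥Qb⟮(t2dLevel 𝔓 H F₀).bc x⟯ ↥(laurentBaseChange Qb F₀) +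
        (1 - CurveP.genusR Qb ↥(laurentBaseChange Qb F₀)) := by
  haveI := t2d_isSeparable 𝔓 H F₀ hX
  exact (t2dLevel 𝔓 H F₀).dim0 hX a b h

/-- **the twisted chart modules of a Kummer function at the DVR level `L_H`**, with Riemann's
inequality -/
theorem t2d_exists_twist {z : ↥(laurentBaseChange ↥(tbFix 𝔓 H) F₀)} {m : ℕ} (hz : z ≠ 0)
    (hm : 0 < m)
    (hdiv : ∀ v : Place Qb ↥(laurentBaseChange Qb F₀), (m : ℤ) ∣ v.ord ((t2dLevel 𝔓 H F₀).bc z)) :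
    ∃ L1 L2 : Submodule ↥(tbFix 𝔓 H) ↥(laurentBaseChange ↥(tbFix 𝔓 H) F₀),
      (∀ s, s ∈ L1 ↔ IsIntegral ↥(Algebra.adjoin ↥(tbFix 𝔓 H) {x}) (s ^ m * z)) ∧
      (∀ s, s ∈ L2 ↔ IsIntegral ↥(Algebra.adjoin ↥(tbFix 𝔓 H) {x⁻¹}) (s ^ m * z)) ∧
      (∀ f s, IsIntegral ↥(Algebra.adjoin ↥(tbFix 𝔓 H) {x}) f → s ∈ L1 → f * s ∈ L1) ∧
      (∀ f s, IsIntegral ↥(Algebra.adjoin ↥(tbFix 𝔓 H) {x⁻¹}) f → s ∈ L2 → f * s ∈ L2) ∧
      (∀ s ∈ L1, ∃ a : ℕ, x⁻¹ ^ a * s ∈ L2) ∧ (∀ s ∈ L2, ∃ b : ℕ, x ^ b * s ∈ L1) ∧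
      (∀ a b : ℕ, FiniteDimensional ↥(tbFix 𝔓 H) ↥(tbL x L1 L2 a b)) ∧
      ∀ a b : ℕ, ((a + b : ℕ) : ℤ) *
          finrank ↥Qb⟮(t2dLevel 𝔓 H F₀).bc x⟯ ↥(laurentBaseChange Qb F₀) +
          (1 - CurveP.genusR Qb ↥(laurentBaseChange Qb F₀)) ≤
        (finrank ↥(tbFix 𝔓 H) ↥(tbL x L1 L2 a b) : ℤ) := by
  haveI := t2d_isSeparable 𝔓 H F₀ hX
  exact (t2dLevel 𝔓 H F₀).exists_twist hX hz hm hdiv

end Final

end Fermat.Agent.T2
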