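/-
T2-D (helper5), part 8: the Riemann–Roch numbers at the DVR level `L_H` for the modular function
fields `F_H = tbLevF 𝔓 N H ⊆ F_K = modularFunctionFieldBar N`, in terms of `tbPhiF`.
-/
import Fermat.Agent.Lib.T2.Desc.Level
import Fermat.Agent.Lib.T1.Inst.CartUp

set_option autoImplicit false
set_option linter.unusedSectionVars false
set_option linter.style.haveILetI false
set_option synthInstance.maxHeartbeats 400000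

namespace Fermat.Agent.T2

open ModularCurve Module AlgebraicCurve IntermediateField Fermat.Agent.Curve
  Fermat.Agent.T1 Fermat.Agent.TW

local notation "Qb" => AlgebraicClosure ℚ

variable (𝔓 : FFPlace) (N : ℕ) [NeZero N] (H : Subgroup 𝔓.I)

theorem t2d_bc_eq_tbPhiF (f : ↥(tbLevF 𝔓 N H)) :
    (t2dLevel 𝔓 H (modularFunctionFieldFull N)).bc f = tbPhiF 𝔓 N H f := rfl

variable {x : ↥(tbLevF 𝔓 N H)}
  (hX : IsFunctionFieldGen Qb ↥(modularFunctionFieldBar N) (tbPhiF 𝔓 N H x))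

include hX

theorem t2d_finiteDimensional_tbLbar_mod (a b : ℕ) :
    FiniteDimensional ↥(tbFix 𝔓 H) ↥(tbLbar (K := ↥(tbFix 𝔓 H)) x a b) :=
  t2d_finiteDimensional_tbLbar 𝔓 H (modularFunctionFieldFull N) hX a b

/-- **`dim0` of `T2Setup` at level `H`**: `n = [F_K : ℚ̄(x)]`, `c = 1 - g(F_K)`, `a0 = 2 g - 1` -/
theorem t2d_dim0_mod (a b : ℕ)
    (h : 2 * CurveP.genusR Qb ↥(modularFunctionFieldBar N) ≤ a + b + 1) :
    (finrank ↥(tbFix 𝔓 H) ↥(tbLbar (K := ↥(tbFix 𝔓 H)) x a b) : ℤ) =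
      ((a + b : ℕ) : ℤ) * finrank ↥Qb⟮tbPhiF 𝔓 N H x⟯ ↥(modularFunctionFieldBar N) +
        (1 - CurveP.genusR Qb ↥(modularFunctionFieldBar N)) :=
  t2d_dim0 𝔓 H (modularFunctionFieldFull N) hX a b h

set_option maxHeartbeats 1600000 in
/-- **the `T2Twist` data of a Kummer function at level `H`** -/
theorem t2d_exists_twist_mod {z : ↥(tbLevF 𝔓 N H)} {m : ℕ} (hz : z ≠ 0) (hm : 0 < m)
    (hdiv : ∀ v : Place Qb ↥(modularFunctionFieldBar N), (m : ℤ) ∣ v.ord (tbPhiF 𝔓 N H z)) :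
    ∃ L1 L2 : Submodule ↥(tbFix 𝔓 H) ↥(tbLevF 𝔓 N H),
      (∀ s, s ∈ L1 ↔ IsIntegral ↥(Algebra.adjoin ↥(tbFix 𝔓 H) {x}) (s ^ m * z)) ∧
      (∀ s, s ∈ L2 ↔ IsIntegral ↥(Algebra.adjoin ↥(tbFix 𝔓 H) {x⁻¹}) (s ^ m * z)) ∧
      (∀ f s, IsIntegral ↥(Algebra.adjoin ↥(tbFix 𝔓 H) {x}) f → s ∈ L1 → f * s ∈ L1) ∧
      (∀ f s, IsIntegral ↥(Algebra.adjoin ↥(tbFix 𝔓 H) {x⁻¹}) f → s ∈ L2 → f * s ∈ L2) ∧
      (∀ s ∈ L1, ∃ a : ℕ, x⁻¹ ^ a * s ∈ L2) ∧ (∀ s ∈ L2, ∃ b : ℕ, x ^ b * s ∈ L1) ∧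
      (∀ a b : ℕ, FiniteDimensional ↥(tbFix 𝔓 H) ↥(tbL x L1 L2 a b)) ∧
      ∀ a b : ℕ, ((a + b : ℕ) : ℤ) *
          finrank ↥Qb⟮tbPhiF 𝔓 N H x⟯ ↥(modularFunctionFieldBar N) +
          (1 - CurveP.genusR Qb ↥(modularFunctionFieldBar N)) ≤
        (finrank ↥(tbFix 𝔓 H) ↥(tbL x L1 L2 a b) : ℤ) :=
  t2d_exists_twist 𝔓 H (modularFunctionFieldFull N) hX hz hm hdiv

omit hX in
/-- integrality at level `H` ⟺ integrality over `ℚ̄` -/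
theorem t2d_isIntegral_tbPhiF_iff (y u : ↥(tbLevF 𝔓 N H)) :
    IsIntegral ↥(Algebra.adjoin ↥(tbFix 𝔓 H) {y}) u ↔
      IsIntegral ↥(Algebra.adjoin Qb {tbPhiF 𝔓 N H y}) (tbPhiF 𝔓 N H u) :=
  (t2dLevel 𝔓 H (modularFunctionFieldFull N)).isIntegral_bc_iff y u

end Fermat.Agent.T2
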