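/-
T2-D (helper5), part 10: `[F_H : L_H(x)] ≤ [F_K : ℚ̄(x)]` at the DVR levels.

* `t2d_transcendental_of_bc`: transcendence descends;
* `t2d_finrank_adjoin_le_of_gen`: generic form for a function-field generator;
* `t2d_finrank_adjoin_le_level`, `t2d_finrank_adjoin_le_mod`: the level-`H` versions
  (`laurentBaseChange L_H F₀` resp. `tbLevF 𝔓 N H` with `tbPhiF`).
-/
import Fermat.Agent.Lib.T2.Desc.Adjoin
import Fermat.Agent.Lib.T2.Desc.LevelMod

set_option autoImplicit false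
set_option linter.unusedSectionVars false
set_option linter.style.haveILetI false
set_option synthInstance.maxHeartbeats 400000

namespace Fermat.Agent.T2

open ModularCurve Module Polynomial AlgebraicCurve IntermediateField Fermat.Agent.Curve
  Fermat.Agent.T1 Fermat.Agent.TW

section Generic

variable {k Ω : Type*} [Field k] [Field Ω] (j : k →+* Ω)
  (Fk : IntermediateField k (LaurentSeries k)) (FΩ : IntermediateField Ω (LaurentSeries Ω))
  (hF : ∀ t ∈ Fk, coeffMap j t ∈ FΩ)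

/-- transcendence descends along the change of the constant field -/
theorem t2d_transcendental_of_bc (z : ↥Fk) (h : Transcendental Ω (t2dBc j Fk FΩ hF z)) :
    Transcendental k z := by
  rw [transcendental_iff] at h ⊢
  intro p hp
  have h1 : aeval (t2dBc j Fk FΩ hF z) (p.map j) = 0 := by
    rw [← t2d_map_aeval j (t2dBc j Fk FΩ hF) (t2dBc_algebraMap j Fk FΩ hF), hp, map_zero]
  have h2 := h _ h1
  exact Polynomial.map_injective j j.injective (by rw [h2, Polynomial.map_zero])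

/-- **`[Fk : k(z)] ≤ [FΩ : Ω(j z)]`** for a function-field generator `j z` -/
theorem t2d_finrank_adjoin_le_of_gen (z : ↥Fk)
    (hZ : IsFunctionFieldGen Ω ↥FΩ (t2dBc j Fk FΩ hF z)) :
    FiniteDimensional ↥k⟮z⟯ ↥Fk ∧
      finrank ↥k⟮z⟯ ↥Fk ≤ finrank ↥Ω⟮t2dBc j Fk FΩ hF z⟯ ↥FΩ := by
  haveI := hZ.finite
  exact t2d_finrank_adjoin_le j Fk FΩ hF z
    (t2d_transcendental_of_bc j Fk FΩ hF z hZ.transcendental)

end Generic

local notation "Qb" => AlgebraicClosure ℚ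

section Level

variable (𝔓 : FFPlace) (H : Subgroup 𝔓.I) (F₀ : IntermediateField ℚ (LaurentSeries ℚ))
  {x : ↥(laurentBaseChange ↥(tbFix 𝔓 H) F₀)}
  (hX : IsFunctionFieldGen Qb ↥(laurentBaseChange Qb F₀) ((t2dLevel 𝔓 H F₀).bc x))

include hX

/-- **`[F_H : L_H(x)] ≤ [F_K : ℚ̄(x)]`** for `F_H = laurentBaseChange L_H F₀` -/
theorem t2d_finrank_adjoin_le_level :
    FiniteDimensional ↥(↥(tbFix 𝔓 H))⟮x⟯ ↥(laurentBaseChange ↥(tbFix 𝔓 H) F₀) ∧
      finrank ↥(↥(tbFix 𝔓 H))⟮x⟯ ↥(laurentBaseChange ↥(tbFix 𝔓 H) F₀) ≤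
        finrank ↥Qb⟮(t2dLevel 𝔓 H F₀).bc x⟯ ↥(laurentBaseChange Qb F₀) :=
  t2d_finrank_adjoin_le_of_gen _ _ _ (t2dLevel 𝔓 H F₀).up x hX

omit hX in
/-- `x` is transcendental over `L_H` as soon as its image is transcendental over `ℚ̄` -/
theorem t2d_transcendental_level
    (h : Transcendental Qb ((t2dLevel 𝔓 H F₀).bc x)) : Transcendental ↥(tbFix 𝔓 H) x :=
  t2d_transcendental_of_bc _ _ _ (t2dLevel 𝔓 H F₀).up x h

end Level

section Mod

variable (𝔓 : FFPlace) (N : ℕ) [NeZero N] (H : Subgroup 𝔓.I) {x : ↥(tbLevF 𝔓 N H)}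
  (hX : IsFunctionFieldGen Qb ↥(modularFunctionFieldBar N) (tbPhiF 𝔓 N H x))

include hX

/-- **`[F_H : L_H(x)] ≤ [F_K : ℚ̄(x)]`** for `F_H = tbLevF 𝔓 N H`, `F_K = modularFunctionFieldBar N` -/
theorem t2d_finrank_adjoin_le_mod :
    FiniteDimensional ↥(↥(tbFix 𝔓 H))⟮x⟯ ↥(tbLevF 𝔓 N H) ∧
      finrank ↥(↥(tbFix 𝔓 H))⟮x⟯ ↥(tbLevF 𝔓 N H) ≤
        finrank ↥Qb⟮tbPhiF 𝔓 N H x⟯ ↥(modularFunctionFieldBar N) :=
  t2d_finrank_adjoin_le_level 𝔓 H (modularFunctionFieldFull N) hX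

/-- `x` is a function-field generator at level `H` -/
theorem t2d_isFunctionFieldGen_mod :
    IsFunctionFieldGen ↥(tbFix 𝔓 H) ↥(tbLevF 𝔓 N H) x :=
  ⟨t2d_transcendental_level 𝔓 H (modularFunctionFieldFull N) hX.transcendental,
    (t2d_finrank_adjoin_le_mod 𝔓 N H hX).1⟩

end Mod

end Fermat.Agent.T2
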