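/-
T2-D (helper5), part 1: Galois descent of finite-dimensional spaces of Laurent series.

`j : k → Ω` fields, `S` a set of ring endomorphisms of `Ω` whose common fixed elements are exactly
`j(k)`.  A finite-dimensional `Ω`-subspace `V ⊆ Ω((q))` stable under the coefficientwise action of
every `σ ∈ S` is defined over `k`: its pull-back `t2dPull j V = {t ∈ k((q)) | j(t) ∈ V}` has
`finrank k (t2dPull j V) = finrank Ω V` (`t2d_finrank_pull`), and `V` is the `Ω`-span of it
(`t2d_span_pull`).  Proof: reduced echelon form with respect to `d = dim V` coefficient positions.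
-/
import Mathlib
import Fermat.Prelude.Def_ModularCurve_LaurentCoeff
import Fermat.Agent.Lib.T1.Dict.DescentLin

set_option autoImplicit false
set_option linter.unusedSectionVars false
set_option linter.style.haveILetI false

namespace Fermat.Agent.T2

open ModularCurve Module Fermat.Agent.T1

section Positions

variable {Ω : Type*} [Field Ω]

/-- the `n`-th coefficient as a linear functional -/
def t2dCoeff (n : ℤ) : LaurentSeries Ω →ₗ[Ω] Ω where
  toFun v := v.coeff n
  map_add' _ _ := rfl
  map_smul' _ _ := rfl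

@[simp] theorem t2dCoeff_apply (n : ℤ) (v : LaurentSeries Ω) : t2dCoeff n v = v.coeff n := rfl

theorem t2d_exists_positions_aux (d : ℕ) :
    ∀ (V : Submodule Ω (LaurentSeries Ω)) [FiniteDimensional Ω V], finrank Ω V ≤ d →
      ∃ n : Fin d → ℤ, ∀ v ∈ V, (∀ i, v.coeff (n i) = 0) → v = 0 := by
  induction d with
  | zero =>
    intro V _ h
    have hV : V = ⊥ := Submodule.finrank_eq_zero.mp (Nat.le_zero.mp h)
    refine ⟨Fin.elim0, fun v hv _ => ?_⟩
    rw [hV] at hv
    exact (Submodule.mem_bot Ω).mp hv
  | succ d ih =>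
    intro V _ h
    by_cases hV : V = ⊥
    · refine ⟨fun _ => 0, fun v hv _ => ?_⟩
      rw [hV] at hv
      exact (Submodule.mem_bot Ω).mp hv
    · obtain ⟨v₀, hv₀, hv₀0⟩ := (Submodule.ne_bot_iff V).mp hV
      obtain ⟨n₀, hn₀⟩ : ∃ n₀, v₀.coeff n₀ ≠ 0 := by
        by_contra hcon
        push Not at hcon
        exact hv₀0 (HahnSeries.ext (funext hcon))
      have hlt : V ⊓ LinearMap.ker (t2dCoeff (Ω := Ω) n₀) < V := by
        refine lt_of_le_of_ne inf_le_left (fun heq => hn₀ ?_)
        have : v₀ ∈ V ⊓ LinearMap.ker (t2dCoeff (Ω := Ω) n₀) := by rw [heq]; exact hv₀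
        exact LinearMap.mem_ker.mp this.2
      have hfin : finrank Ω ↥(V ⊓ LinearMap.ker (t2dCoeff (Ω := Ω) n₀)) ≤ d := by
        have := Submodule.finrank_lt_finrank_of_lt hlt
        omega
      obtain ⟨n', hn'⟩ := ih (V ⊓ LinearMap.ker (t2dCoeff (Ω := Ω) n₀)) hfin
      refine ⟨Fin.cons n₀ n', fun v hv hz => hn' v ⟨hv, ?_⟩ (fun i => ?_)⟩
      · have := hz 0
        rwa [Fin.cons_zero] at this
      · have := hz i.succ
        rwa [Fin.cons_succ] at this

/-- **echelon positions**: `dim V` coefficient positions which separate the points of `V` -/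
theorem t2d_exists_positions (V : Submodule Ω (LaurentSeries Ω)) [FiniteDimensional Ω V] :
    ∃ n : Fin (finrank Ω V) → ℤ, ∀ v ∈ V, (∀ i, v.coeff (n i) = 0) → v = 0 :=
  t2d_exists_positions_aux _ V le_rfl

/-- the coordinates of `V` at the positions `n` -/
def t2dPos {d : ℕ} (n : Fin d → ℤ) (V : Submodule Ω (LaurentSeries Ω)) :
    ↥V →ₗ[Ω] (Fin d → Ω) where
  toFun v := fun i => (v : LaurentSeries Ω).coeff (n i)
  map_add' _ _ := rfl
  map_smul' _ _ := rfl

@[simp] theorem t2dPos_apply {d : ℕ} (n : Fin d → ℤ) (V : Submodule Ω (LaurentSeries Ω))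
    (v : ↥V) (i : Fin d) : t2dPos n V v i = (v : LaurentSeries Ω).coeff (n i) := rfl

theorem t2dPos_bijective (V : Submodule Ω (LaurentSeries Ω)) [FiniteDimensional Ω V]
    (n : Fin (finrank Ω V) → ℤ) (hn : ∀ v ∈ V, (∀ i, v.coeff (n i) = 0) → v = 0) :
    Function.Bijective (t2dPos n V) := by
  have hinj : Function.Injective (t2dPos n V) := by
    rw [← LinearMap.ker_eq_bot, LinearMap.ker_eq_bot']
    intro v hv
    exact Subtype.ext (hn v v.2 (fun i => congrFun hv i))
  have heq : finrank Ω ↥V = finrank Ω (Fin (finrank Ω V) → Ω) := by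
    rw [Module.finrank_fintype_fun_eq_card, Fintype.card_fin]
  exact ⟨hinj, (LinearMap.injective_iff_surjective_of_finrank_eq_finrank heq).mp hinj⟩

end Positions

section Pull

variable {k Ω : Type*} [Field k] [Field Ω] (j : k →+* Ω)

theorem t2d_coeffMap_injective : Function.Injective (coeffMap j) := by
  intro s t h
  ext n
  have := congrArg (fun w => HahnSeries.coeff w n) h
  simp only [coeffMap_coeff] at this
  exact j.injective this

theorem t2d_coeffMap_smul (c : k) (t : LaurentSeries k) :
    coeffMap j (c • t) = j c • coeffMap j t := by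
  ext n
  simp

/-- the pull-back to `k((q))` of a subspace of `Ω((q))` -/
def t2dPull (V : Submodule Ω (LaurentSeries Ω)) : Submodule k (LaurentSeries k) where
  carrier := {t | coeffMap j t ∈ V}
  zero_mem' := by
    show coeffMap j 0 ∈ V
    rw [map_zero]
    exact V.zero_mem
  add_mem' := by
    intro s t hs ht
    show coeffMap j (s + t) ∈ V
    rw [map_add]
    exact V.add_mem hs ht
  smul_mem' := by
    intro c t ht
    show coeffMap j (c • t) ∈ V
    rw [t2d_coeffMap_smul]
    exact V.smul_mem _ ht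

theorem mem_t2dPull {V : Submodule Ω (LaurentSeries Ω)} {t : LaurentSeries k} :
    t ∈ t2dPull j V ↔ coeffMap j t ∈ V := Iff.rfl

variable (S : Set (Ω →+* Ω)) (hS : ∀ c : Ω, (∀ σ ∈ S, σ c = c) → c ∈ j.range)
  (V : Submodule Ω (LaurentSeries Ω)) [FiniteDimensional Ω V]
  (hV : ∀ σ ∈ S, ∀ v ∈ V, coeffMap σ v ∈ V)

include hS hV in
/-- **the rational echelon basis**: for echelon positions `n` there are `t i ∈ k((q))` with
`j(t i) ∈ V` and `(t i).coeff (n l) = δ_{il}` -/
theorem t2d_exists_echelon (n : Fin (finrank Ω V) → ℤ)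
    (hn : ∀ v ∈ V, (∀ i, v.coeff (n i) = 0) → v = 0) :
    ∃ t : Fin (finrank Ω V) → LaurentSeries k, (∀ i, coeffMap j (t i) ∈ V) ∧
      ∀ i l, (t i).coeff (n l) = if l = i then 1 else 0 := by
  classical
  have hbij := t2dPos_bijective V n hn
  choose w hw using fun i : Fin (finrank Ω V) => hbij.2 (Pi.single i 1)
  have hwcoeff : ∀ i l, ((w i : ↥V) : LaurentSeries Ω).coeff (n l) = if l = i then 1 else 0 := by
    intro i l
    have := congrFun (hw i) l
    rw [t2dPos_apply] at this
    rw [this, Pi.single_apply]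
  -- the `w i` are fixed by `S`
  have hfix : ∀ i, ∀ σ ∈ S, coeffMap σ ((w i : ↥V) : LaurentSeries Ω) = (w i : ↥V) := by
    intro i σ hσ
    have hmem : coeffMap σ ((w i : ↥V) : LaurentSeries Ω) ∈ V := hV σ hσ _ (w i).2
    have h1 : t2dPos n V ⟨_, hmem⟩ = t2dPos n V (w i) := by
      funext l
      rw [t2dPos_apply, t2dPos_apply, coeffMap_coeff, hwcoeff]
      split_ifs <;> simp
    exact congrArg Subtype.val (hbij.1 h1)
  have hrange : ∀ i m, ((w i : ↥V) : LaurentSeries Ω).coeff m ∈ j.range := by
    intro i m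
    refine hS _ (fun σ hσ => ?_)
    have := congrArg (fun u => HahnSeries.coeff u m) (hfix i σ hσ)
    simpa only [coeffMap_coeff] using this
  choose t ht using fun i => tdd_mem_range_coeffMap j ((w i : ↥V) : LaurentSeries Ω) (hrange i)
  refine ⟨t, fun i => by rw [ht i]; exact (w i).2, fun i l => ?_⟩
  apply j.injective
  have := hwcoeff i l
  rw [← ht i, coeffMap_coeff] at this
  rw [this]
  split_ifs <;> simp

/-- the coordinates of the pull-back at the positions `n` -/
def t2dPosK {d : ℕ} (n : Fin d → ℤ) (V : Submodule Ω (LaurentSeries Ω)) :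
    ↥(t2dPull j V) →ₗ[k] (Fin d → k) where
  toFun t := fun i => (t : LaurentSeries k).coeff (n i)
  map_add' _ _ := rfl
  map_smul' _ _ := rfl

include hS hV in
theorem t2dPosK_bijective (n : Fin (finrank Ω V) → ℤ)
    (hn : ∀ v ∈ V, (∀ i, v.coeff (n i) = 0) → v = 0) :
    Function.Bijective (t2dPosK j n V) := by
  classical
  constructor
  · rw [← LinearMap.ker_eq_bot, LinearMap.ker_eq_bot']
    intro t ht
    apply Subtype.ext
    apply t2d_coeffMap_injective j
    rw [ZeroMemClass.coe_zero, map_zero]
    refine hn _ t.2 (fun i => ?_)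
    rw [coeffMap_coeff]
    have : (t : LaurentSeries k).coeff (n i) = 0 := congrFun ht i
    rw [this, map_zero]
  · obtain ⟨t, htV, htc⟩ := t2d_exists_echelon j S hS V hV n hn
    intro a
    refine ⟨⟨∑ i, a i • t i, ?_⟩, ?_⟩
    · exact (t2dPull j V).sum_mem (fun i _ => (t2dPull j V).smul_mem _ (htV i))
    · funext l
      show (∑ i, a i • t i).coeff (n l) = a l
      rw [HahnSeries.coeff_sum]
      simp only [HahnSeries.coeff_smul, htc, smul_eq_mul, mul_ite, mul_one, mul_zero]
      rw [Finset.sum_ite_eq]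
      simp

include hS hV in
/-- **Galois descent of dimensions** -/
theorem t2d_finrank_pull : finrank k ↥(t2dPull j V) = finrank Ω ↥V := by
  obtain ⟨n, hn⟩ := t2d_exists_positions V
  have e := LinearEquiv.ofBijective (t2dPosK j n V) (t2dPosK_bijective j S hS V hV n hn)
  rw [e.finrank_eq, Module.finrank_fintype_fun_eq_card, Fintype.card_fin]

include hS hV in
theorem t2d_finiteDimensional_pull : FiniteDimensional k ↥(t2dPull j V) := by
  obtain ⟨n, hn⟩ := t2d_exists_positions V
  have e := LinearEquiv.ofBijective (t2dPosK j n V) (t2dPosK_bijective j S hS V hV n hn)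
  exact Module.Finite.equiv e.symm

include hS hV in
/-- `V` is spanned over `Ω` by its `k`-rational points -/
theorem t2d_span_pull :
    Submodule.span Ω (coeffMap j '' (t2dPull j V : Set (LaurentSeries k))) = V := by
  classical
  obtain ⟨n, hn⟩ := t2d_exists_positions V
  obtain ⟨t, htV, htc⟩ := t2d_exists_echelon j S hS V hV n hn
  apply le_antisymm
  · rw [Submodule.span_le]
    rintro _ ⟨s, hs, rfl⟩
    exact hs
  · intro v hv
    have hsum : v = ∑ i, v.coeff (n i) • coeffMap j (t i) := by
      have hmem : v - ∑ i, v.coeff (n i) • coeffMap j (t i) ∈ V :=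
        V.sub_mem hv (V.sum_mem fun i _ => V.smul_mem _ (htV i))
      have := hn _ hmem (fun l => ?_)
      · exact sub_eq_zero.mp this
      · rw [HahnSeries.coeff_sub, HahnSeries.coeff_sum]
        simp only [HahnSeries.coeff_smul, coeffMap_coeff, htc, smul_eq_mul]
        rw [Finset.sum_eq_single l]
        · simp
        · intro i _ hil
          rw [if_neg (Ne.symm hil), map_zero, mul_zero]
        · simp
    rw [hsum]
    exact Submodule.sum_mem _ (fun i _ => Submodule.smul_mem _ _
      (Submodule.subset_span ⟨t i, htV i, rfl⟩))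

end Pull

end Fermat.Agent.T2
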